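import Fermat.Agent.S30.H90.Lattice

set_option autoImplicit false

/-!
# From an integral pseudo-trace to a representation on a free module of rank two
-/

namespace Fermat.Agent.S30.H90

open Module Polynomial

section Rep

variable {G : Type*} [Group G] {𝒪 : Type*} [CommRing 𝒪] [IsDomain 𝒪] [IsPrincipalIdealRing 𝒪]
variable (K : Type*) [Field K] [Algebra 𝒪 K] [IsFractionRing 𝒪 K]

/-- **(RHO), abstract form.**  An `𝒪`-valued pseudo-trace of dimension two with an odd involution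
is the trace of a representation on a free `𝒪`-module of rank two; congruences for the
pseudo-trace pass to the representation up to one fixed denominator `D`. -/
theorem exists_rep_of_pseudoTrace (h2 : (2 : 𝒪) ≠ 0) (t : G → 𝒪) (c : G) (hc : c * c = 1)
    (t1 : t 1 = 2) (t2 : ∀ g h, t (g * h) = t (h * g))
    (t3 : ∀ g h, 2 * t (g * h) + (t h ^ 2 - t (h ^ 2)) * t (g * h⁻¹) = 2 * (t g * t h))
    (t4 : ∀ g h, 2 * (t (g * h) ^ 2 - t ((g * h) ^ 2))
      = (t g ^ 2 - t (g ^ 2)) * (t h ^ 2 - t (h ^ 2)))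
    (t5 : t c = 0) :
    ∃ (V : Submodule 𝒪 (Fin 2 → K)) (ρ : G →* Module.End 𝒪 V) (D : 𝒪),
      Module.Free 𝒪 V ∧ Module.Finite 𝒪 V ∧ Module.finrank 𝒪 V = 2 ∧ D ≠ 0 ∧
      (∀ g, LinearMap.trace 𝒪 V (ρ g) = t g) ∧
      (∀ g, 2 * LinearMap.det (ρ g) = t g ^ 2 - t (g ^ 2)) ∧
      ∀ (J : Ideal 𝒪) (σ : G), (∀ y, t (σ * y) - t y ∈ Ideal.span {D} * J) →
        ∀ v : V, ρ σ v - v ∈ J • (⊤ : Submodule 𝒪 V) := by
  classical
  have hinj : Function.Injective (algebraMap 𝒪 K) := IsFractionRing.injective 𝒪 K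
  have h2K : (2 : K) ≠ 0 := by
    have : algebraMap 𝒪 K 2 ≠ 0 := by
      rw [Ne, map_eq_zero_iff _ hinj]; exact h2
    rwa [map_ofNat] at this
  have k1 : algebraMap 𝒪 K (t 1) = 2 := by rw [t1, map_ofNat]
  have k2 : ∀ g h, algebraMap 𝒪 K (t (g * h)) = algebraMap 𝒪 K (t (h * g)) :=
    fun g h => by rw [t2 g h]
  have k5 : algebraMap 𝒪 K (t c) = 0 := by rw [t5, map_zero]
  have he1 : (algebraMap 𝒪 K (t 1) ^ 2 - algebraMap 𝒪 K (t (1 ^ 2))) / 2 = 1 := by
    rw [one_pow, k1]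
    field_simp
    norm_num
  have hemul : ∀ g h, (algebraMap 𝒪 K (t (g * h)) ^ 2 - algebraMap 𝒪 K (t ((g * h) ^ 2))) / 2
      = (algebraMap 𝒪 K (t g) ^ 2 - algebraMap 𝒪 K (t (g ^ 2))) / 2
        * ((algebraMap 𝒪 K (t h) ^ 2 - algebraMap 𝒪 K (t (h ^ 2))) / 2) := by
    intro g h
    have := congrArg (algebraMap 𝒪 K) (t4 g h)
    simp only [map_mul, map_sub, map_pow, map_ofNat] at this
    field_simp
    linear_combination this
  let eHom : G →* K :=
    { toFun := fun g => (algebraMap 𝒪 K (t g) ^ 2 - algebraMap 𝒪 K (t (g ^ 2))) / 2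
      map_one' := he1
      map_mul' := hemul }
  let ε : G →* Kˣ := eHom.toHomUnits
  have hε : ∀ g, ((ε g : Kˣ) : K)
      = (algebraMap 𝒪 K (t g) ^ 2 - algebraMap 𝒪 K (t (g ^ 2))) / 2 :=
    fun g => MonoidHom.coe_toHomUnits eHom g
  have hεc : ((ε c : Kˣ) : K) = -1 := by
    rw [hε, pow_two c, hc, k1, k5]
    field_simp
    norm_num
  have k3 : ∀ g h, algebraMap 𝒪 K (t (g * h)) + ((ε h : Kˣ) : K) * algebraMap 𝒪 K (t (g * h⁻¹))
      = algebraMap 𝒪 K (t g) * algebraMap 𝒪 K (t h) := by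
    intro g h
    have := congrArg (algebraMap 𝒪 K) (t3 g h)
    simp only [map_mul, map_add, map_sub, map_pow, map_ofNat] at this
    rw [hε]
    field_simp
    linear_combination this
  obtain ⟨M, hMtr, hMdet, hMspan⟩ :=
    exists_matrixHom_of_pseudoTrace (fun g => algebraMap 𝒪 K (t g)) ε c h2K hc hεc k1 k2 k3 k5
  obtain ⟨D, N₀, hD, hN, hcong⟩ := exists_common_denominator t t2 (fun g => M g) hMspan
  have hfin : Module.Finite 𝒪 (colLattice 𝒪 M) := colLattice_finite M D hD N₀ hN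
  obtain ⟨hrank, hfacts⟩ := colLattice_facts (𝒪 := 𝒪) M
  refine ⟨colLattice 𝒪 M, colRep 𝒪 M, D, inferInstance, hfin, hrank, hD, fun g => ?_, fun g => ?_,
    fun J σ hσ => ?_⟩
  · apply hinj
    rw [(hfacts g).1, hMtr]
  · apply hinj
    rw [map_mul, (hfacts g).2, hMdet, hε, map_sub, map_pow, map_ofNat]
    field_simp
  · refine colRep_sub_mem M D hD N₀ hN J σ fun g i j => ?_
    obtain ⟨z, hz, hz'⟩ := Ideal.mem_span_singleton_mul.mp (hcong _ σ hσ g i j)
    exact ⟨z, hz, hz'.symm⟩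

omit [IsDomain 𝒪] [IsPrincipalIdealRing 𝒪] in
/-- The characteristic polynomial of an endomorphism of a free module of rank two. -/
theorem charpoly_eq_of_finrank_two {R : Type*} [CommRing R] [Nontrivial R] {V : Type*}
    [AddCommGroup V] [Module R V] [Module.Free R V] [Module.Finite R V]
    (h : Module.finrank R V = 2) (f : Module.End R V) :
    LinearMap.charpoly f = X ^ 2 - C (LinearMap.trace R V f) * X + C (LinearMap.det f) := by
  classical
  let b : Basis (Fin 2) R V := Module.finBasisOfFinrankEq R V h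
  rw [← LinearMap.charpoly_toMatrix f b, Matrix.charpoly_fin_two,
    LinearMap.trace_eq_matrix_trace R b f, LinearMap.det_toMatrix b f]

end Rep

end Fermat.Agent.S30.H90
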