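import Fermat.Prelude.Def_CuspForm_HeckeGaloisRepDatum
import Fermat.Prelude.Def_GaloisRep_ComplexConjugation
import Fermat.Agent.S30.H90.Rep

set_option autoImplicit false

/-!
# (RHO): from a pseudo-trace on `Gal(ℚ̄/ℚ)` to the conclusion of the frozen S30

`t : Gal(ℚ̄/ℚ) → 𝒪` with the identities (t1)–(t5) of a two-dimensional pseudo-trace
(`t` at complex conjugation is `0`), the Frobenius values (t6), invariance under inertia (t7) and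
adic continuity (t8) gives a `GaloisRepAdic 𝒪` with the prescribed characteristic polynomials,
unramified where `t` is.  No extension of `𝒪` is needed.
-/

namespace Fermat.Agent.S30.H90

open Polynomial

section Galois

variable {𝒪 : Type} [CommRing 𝒪] [IsDomain 𝒪] [IsDiscreteValuationRing 𝒪] [CharZero 𝒪]

omit [CharZero 𝒪] in
theorem exists_pow_le_span_mul (D : 𝒪) (hD : D ≠ 0) (n : ℕ) :
    ∃ m : ℕ, IsLocalRing.maximalIdeal 𝒪 ^ m ≤ Ideal.span {D} * IsLocalRing.maximalIdeal 𝒪 ^ n := by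
  obtain ⟨ϖ, hϖ⟩ := IsDiscreteValuationRing.exists_irreducible 𝒪
  have hs : Ideal.span {D} ≠ ⊥ := by
    rw [Ne, Ideal.span_singleton_eq_bot]; exact hD
  obtain ⟨d, hd⟩ := IsDiscreteValuationRing.ideal_eq_span_pow_irreducible hs hϖ
  refine ⟨d + n, ?_⟩
  rw [hd, hϖ.maximalIdeal_eq, Ideal.span_singleton_pow, Ideal.span_singleton_pow,
    Ideal.span_singleton_mul_span_singleton, pow_add]

/-- **(RHO), Galois form.** -/
theorem exists_galoisRepAdic_of_pseudoTrace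
    (t : (AlgebraicClosure ℚ ≃ₐ[ℚ] AlgebraicClosure ℚ) → 𝒪)
    (t1 : t 1 = 2) (t2 : ∀ g h, t (g * h) = t (h * g))
    (t3 : ∀ g h, 2 * t (g * h) + (t h ^ 2 - t (h ^ 2)) * t (g * h⁻¹) = 2 * (t g * t h))
    (t4 : ∀ g h, 2 * (t (g * h) ^ 2 - t ((g * h) ^ 2))
      = (t g ^ 2 - t (g ^ 2)) * (t h ^ 2 - t (h ^ 2)))
    (t5 : t complexConjugation = 0)
    (t8 : ∀ n : ℕ, ∃ L : IntermediateField ℚ (AlgebraicClosure ℚ), FiniteDimensional ℚ L ∧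
      ∀ σ : AlgebraicClosure ℚ ≃ₐ[ℚ] AlgebraicClosure ℚ, (∀ x ∈ L, σ x = x) →
        ∀ g, t (σ * g) - t g ∈ IsLocalRing.maximalIdeal 𝒪 ^ n) :
    ∃ ρ : GaloisRepAdic 𝒪,
      (∀ (σ : AlgebraicClosure ℚ ≃ₐ[ℚ] AlgebraicClosure ℚ) (d : 𝒪),
        t σ ^ 2 - t (σ ^ 2) = 2 * d →
          LinearMap.charpoly (ρ.ρ σ) = X ^ 2 - C (t σ) * X + C d) ∧
      (∀ σ : AlgebraicClosure ℚ ≃ₐ[ℚ] AlgebraicClosure ℚ, (∀ g, t (σ * g) = t g) → ρ.ρ σ = 1) := by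
  have h2 : (2 : 𝒪) ≠ 0 := two_ne_zero
  obtain ⟨V, ρ, D, hfree, hfin, hrank, hD, htr, hdet, hcong⟩ :=
    exists_rep_of_pseudoTrace (FractionRing 𝒪) h2 t complexConjugation
      complexConjugation_mul_self t1 t2 t3 t4 t5
  refine ⟨{ V := V
            finrank_eq := hrank
            ρ := ρ
            isAdicContinuous := ?_ }, ?_, ?_⟩
  · intro n
    obtain ⟨m, hm⟩ := exists_pow_le_span_mul D hD n
    obtain ⟨L, hL, h⟩ := t8 m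
    exact ⟨L, hL, fun σ hσ v => hcong _ σ (fun y => hm (h σ hσ y)) v⟩
  · intro σ d hd
    show LinearMap.charpoly (ρ σ) = _
    rw [charpoly_eq_of_finrank_two hrank, htr]
    have : LinearMap.det (ρ σ) = d := by
      have h := hdet σ
      rw [hd] at h
      exact mul_left_cancel₀ h2 h
    rw [this]
  · intro σ hσ
    show ρ σ = 1
    apply LinearMap.ext
    intro v
    have h := hcong ⊥ σ (fun y => by rw [hσ y, sub_self]; exact zero_mem _) v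
    rw [Submodule.bot_smul, Submodule.mem_bot, sub_eq_zero] at h
    exact h

end Galois

/-- **(RHO), in the shape of the frozen S30**: the conclusion of S30 from a pseudo-trace `t`
with (t1)–(t8). -/
theorem s30_of_pseudoTrace (p : ℕ) (N : ℕ) [NeZero N] (S : Finset ℕ)
    (𝒪' : Type) [CommRing 𝒪'] [IsDomain 𝒪'] [IsDiscreteValuationRing 𝒪']
    [IsAdicComplete (IsLocalRing.maximalIdeal 𝒪') 𝒪'] [Finite (IsLocalRing.ResidueField 𝒪')]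
    [CharZero 𝒪']
    (χ : CuspForm.heckeAlgebra N 2 (↑S : Set ℕ) →+* 𝒪')
    (t : (AlgebraicClosure ℚ ≃ₐ[ℚ] AlgebraicClosure ℚ) → 𝒪')
    (t1 : t 1 = 2) (t2 : ∀ g h, t (g * h) = t (h * g))
    (t3 : ∀ g h, 2 * t (g * h) + (t h ^ 2 - t (h ^ 2)) * t (g * h⁻¹) = 2 * (t g * t h))
    (t4 : ∀ g h, 2 * (t (g * h) ^ 2 - t ((g * h) ^ 2))
      = (t g ^ 2 - t (g ^ 2)) * (t h ^ 2 - t (h ^ 2)))
    (t5 : t complexConjugation = 0)
    (t6 : ∀ (ℓ : ℕ) (hℓ : ℓ.Prime) (hℓN : ¬ ℓ ∣ N) (hℓS : ℓ ∉ (↑S : Set ℕ)),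
      ∀ A : ValuationSubring (AlgebraicClosure ℚ), A.LiesOverPrime ℓ →
        ∀ σ : AlgebraicClosure ℚ ≃ₐ[ℚ] AlgebraicClosure ℚ, A.IsFrobeniusAt σ ℓ →
          t σ = χ (CuspForm.heckeAlgebra.T hℓ hℓN hℓS) ∧ t σ ^ 2 - t (σ ^ 2) = 2 * (ℓ : 𝒪'))
    (t7 : ∀ q : ℕ, q.Prime → ¬ q ∣ N → q ≠ p →
      ∀ P : ValuationSubring (AlgebraicClosure ℚ), P.LiesOverPrime q →
        ∀ σ ∈ P.inertiaSubgroupIn ℚ, ∀ g, t (σ * g) = t g)
    (t8 : ∀ n : ℕ, ∃ L : IntermediateField ℚ (AlgebraicClosure ℚ), FiniteDimensional ℚ L ∧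
      ∀ σ : AlgebraicClosure ℚ ≃ₐ[ℚ] AlgebraicClosure ℚ, (∀ x ∈ L, σ x = x) →
        ∀ g, t (σ * g) - t g ∈ IsLocalRing.maximalIdeal 𝒪' ^ n) :
    ∃ (𝒪'' : Type) (_ : CommRing 𝒪'') (_ : IsDomain 𝒪'') (_ : IsDiscreteValuationRing 𝒪'')
      (_ : IsAdicComplete (IsLocalRing.maximalIdeal 𝒪'') 𝒪'')
      (_ : Finite (IsLocalRing.ResidueField 𝒪'')) (_ : CharZero 𝒪'')
      (_ : Algebra 𝒪' 𝒪'') (_ : Module.Finite 𝒪' 𝒪'') (_ : IsLocalHom (algebraMap 𝒪' 𝒪'')),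
    Function.Injective (algebraMap 𝒪' 𝒪'') ∧
    ∃ ρ : GaloisRepAdic 𝒪'',
      (∀ (ℓ : ℕ) (hℓ : ℓ.Prime) (hℓN : ¬ ℓ ∣ N) (hℓS : ℓ ∉ (↑S : Set ℕ)),
        ∀ A : ValuationSubring (AlgebraicClosure ℚ), A.LiesOverPrime ℓ →
          ∀ σ : AlgebraicClosure ℚ ≃ₐ[ℚ] AlgebraicClosure ℚ, A.IsFrobeniusAt σ ℓ →
            LinearMap.charpoly (ρ.ρ σ) =
              X ^ 2 - C (algebraMap 𝒪' 𝒪'' (χ (CuspForm.heckeAlgebra.T hℓ hℓN hℓS))) * X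
                + C ((ℓ : 𝒪''))) ∧
      (∀ q : ℕ, q.Prime → ¬ q ∣ N → q ≠ p → ρ.IsUnramifiedAt q) := by
  obtain ⟨ρ, hchar, hunr⟩ := exists_galoisRepAdic_of_pseudoTrace t t1 t2 t3 t4 t5 t8
  refine ⟨𝒪', inferInstance, inferInstance, inferInstance, inferInstance, inferInstance,
    inferInstance, Algebra.id 𝒪', inferInstance, ?_, Function.injective_id, ρ, ?_, ?_⟩
  · rw [Algebra.algebraMap_self]
    exact isLocalHom_id 𝒪'
  · intro ℓ hℓ hℓN hℓS A hA σ hσ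
    obtain ⟨h1, h2⟩ := t6 ℓ hℓ hℓN hℓS A hA σ hσ
    rw [hchar σ (ℓ : 𝒪') h2, h1, Algebra.algebraMap_self, RingHom.id_apply]
  · intro q hq hqN hqp P hP σ hσ
    exact hunr σ (t7 q hq hqN hqp P hP σ hσ)

end Fermat.Agent.S30.H90
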