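import Mathlib

set_option autoImplicit false

/-!
# Operator calculus for a degree-two Cayley–Hamilton action with an odd involution

`r : G →* E` (a `K`-algebra), `ε : G →* Kˣ`, `t : G → K` with
`r g + ε g • r g⁻¹ = t g • 1`, and `c * c = 1`, `ε c = -1`.
-/

namespace Fermat.Agent.S30.H90

section OperatorCalculus

variable {K : Type*} [Field K] {E : Type*} [Ring E] [Algebra K E] {G : Type*} [Group G]
variable (r : G →* E) (ε : G →* Kˣ) (t : G → K) (c : G)

/-- The idempotent `(1 + r c) / 2`. -/
def idemP : E := (2⁻¹ : K) • (1 + r c)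

/-- The idempotent `(1 - r c) / 2`. -/
def idemM : E := (2⁻¹ : K) • (1 - r c)

/-- Upper-left matrix coefficient. -/
def aFun (g : G) : K := (t g + t (c * g)) / 2

/-- Lower-right matrix coefficient. -/
def dFun (g : G) : K := (t g - t (c * g)) / 2

/-- The off-diagonal product. -/
def xFun (g h : G) : K := aFun t c (g * h) - aFun t c g * aFun t c h

theorem aFun_add_dFun (h2 : (2 : K) ≠ 0) (g : G) : aFun t c g + dFun t c g = t g := by
  unfold aFun dFun; field_simp; ring

variable {r ε t c}
variable (hrel : ∀ g, r g + (ε g : K) • r g⁻¹ = t g • (1 : E))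
  (hc : c * c = 1) (hεc : (ε c : K) = -1) (h2 : (2 : K) ≠ 0)

include hc in
theorem rc_mul_rc : r c * r c = 1 := by rw [← map_mul, hc, map_one]

include hrel in
theorem star_eq (g : G) : (ε g : K) • r g⁻¹ = t g • (1 : E) - r g :=
  eq_sub_of_add_eq' (hrel g)

include hrel hc hεc in
theorem key_anti (g : G) : r c * r g + r g * r c = t (c * g) • (1 : E) + t g • r c := by
  have h := hrel (c * g)
  have hci : c⁻¹ = c := inv_eq_of_mul_eq_one_right hc
  have h1 : ((ε (c * g) : Kˣ) : K) = - (ε g : K) := by
    rw [map_mul, Units.val_mul, hεc]; ring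
  rw [h1, mul_inv_rev, hci, map_mul, map_mul, neg_smul, ← smul_mul_assoc, star_eq hrel g] at h
  rw [sub_mul, smul_mul_assoc, one_mul] at h
  linear_combination (norm := module) h

include hrel hc hεc in
theorem conj_c (g : G) : r c * r g * r c = t (c * g) • r c + t g • (1 : E) - r g := by
  have h := congrArg (· * r c) (key_anti hrel hc hεc g)
  simp only [add_mul, mul_assoc, rc_mul_rc hc, mul_one, smul_mul_assoc, one_mul] at h
  rw [← mul_assoc] at h
  linear_combination (norm := module) h

include hc h2 in
theorem idemP_mul_idemP : idemP (K := K) r c * idemP (K := K) r c = idemP (K := K) r c := by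
  unfold idemP
  rw [smul_mul_smul_comm]
  have h : ((1 : E) + r c) * (1 + r c) = (2 : K) • (1 + r c) := by
    rw [add_mul, mul_add, mul_add, rc_mul_rc hc, one_mul, mul_one, one_mul]
    module
  rw [h, smul_smul]
  congr 1
  field_simp

include hc h2 in
theorem idemM_mul_idemM : idemM (K := K) r c * idemM (K := K) r c = idemM (K := K) r c := by
  unfold idemM
  rw [smul_mul_smul_comm]
  have h : ((1 : E) - r c) * (1 - r c) = (2 : K) • (1 - r c) := by
    rw [sub_mul, mul_sub, mul_sub, rc_mul_rc hc, one_mul, mul_one, one_mul]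
    module
  rw [h, smul_smul]
  congr 1
  field_simp

include hc in
theorem idemP_mul_idemM : idemP (K := K) r c * idemM (K := K) r c = 0 := by
  unfold idemP idemM
  rw [smul_mul_smul_comm]
  have h : ((1 : E) + r c) * (1 - r c) = 0 := by
    rw [add_mul, mul_sub, mul_sub, rc_mul_rc hc, one_mul, mul_one, one_mul]
    abel
  rw [h, smul_zero]

include hc in
theorem idemM_mul_idemP : idemM (K := K) r c * idemP (K := K) r c = 0 := by
  unfold idemP idemM
  rw [smul_mul_smul_comm]
  have h : ((1 : E) - r c) * (1 + r c) = 0 := by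
    rw [sub_mul, mul_add, mul_add, rc_mul_rc hc, one_mul, mul_one, one_mul]
    abel
  rw [h, smul_zero]

include h2 in
theorem idemP_add_idemM : idemP (K := K) r c + idemM (K := K) r c = 1 := by
  unfold idemP idemM
  have : (2⁻¹ : K) + 2⁻¹ = 1 := by field_simp; norm_num
  calc (2⁻¹ : K) • ((1 : E) + r c) + (2⁻¹ : K) • (1 - r c)
      = ((2⁻¹ : K) + 2⁻¹) • (1 : E) := by module
    _ = 1 := by rw [this, one_smul]

include hrel hc hεc h2 in
theorem idemP_mul (g : G) :
    idemP (K := K) r c * r g * idemP (K := K) r c = aFun t c g • idemP (K := K) r c := by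
  unfold idemP aFun
  have h : ((1 : E) + r c) * r g * (1 + r c) = (t g + t (c * g)) • (1 + r c) := by
    have h1 := key_anti hrel hc hεc g
    have h3 := conj_c hrel hc hεc g
    simp only [add_mul, mul_add, one_mul, mul_one]
    linear_combination (norm := module) h1 + h3
  rw [smul_mul_assoc, smul_mul_assoc, mul_smul_comm, h, smul_smul, smul_smul, smul_smul]
  congr 1
  field_simp

include hrel hc hεc h2 in
theorem idemM_mul (g : G) :
    idemM (K := K) r c * r g * idemM (K := K) r c = dFun t c g • idemM (K := K) r c := by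
  unfold idemM dFun
  have h : ((1 : E) - r c) * r g * (1 - r c) = (t g - t (c * g)) • (1 - r c) := by
    have h1 := key_anti hrel hc hεc g
    have h3 := conj_c hrel hc hεc g
    simp only [sub_mul, mul_sub, one_mul, mul_one]
    linear_combination (norm := module) h3 - h1
  rw [smul_mul_assoc, smul_mul_assoc, mul_smul_comm, h, smul_smul, smul_smul, smul_smul]
  congr 1
  field_simp

include hrel hc hεc h2 in
/-- `e₊ g e₋ h e₊ = x(g,h) e₊`. -/
theorem idemP_mul_idemM_mul (g h : G) :
    idemP (K := K) r c * r g * idemM (K := K) r c * r h * idemP (K := K) r c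
      = xFun t c g h • idemP (K := K) r c := by
  have hsum := idemP_add_idemM (K := K) (r := r) (c := c) h2
  have hPP := idemP_mul_idemP (K := K) (r := r) hc h2
  set P := idemP (K := K) r c
  set M := idemM (K := K) r c
  have e1 : P * r (g * h) * P = P * r g * P * (P * r h * P) + P * r g * M * r h * P := by
    rw [map_mul]
    calc P * (r g * r h) * P = P * r g * (P + M) * r h * P := by rw [hsum]; noncomm_ring
      _ = P * r g * (P * P) * r h * P + P * r g * M * r h * P := by rw [hPP]; noncomm_ring
      _ = _ := by noncomm_ring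
  rw [idemP_mul hrel hc hεc h2 g, idemP_mul hrel hc hεc h2 h, idemP_mul hrel hc hεc h2 (g * h),
    smul_mul_smul_comm, hPP] at e1
  unfold xFun
  rw [sub_smul]
  exact eq_sub_of_add_eq' e1.symm

include hrel hc hεc h2 in
/-- `e₋ h e₊ g e₋ = (d(hg) - d(h) d(g)) e₋`. -/
theorem idemM_mul_idemP_mul (h g : G) :
    idemM (K := K) r c * r h * idemP (K := K) r c * r g * idemM (K := K) r c
      = (dFun t c (h * g) - dFun t c h * dFun t c g) • idemM (K := K) r c := by
  have hsum := idemP_add_idemM (K := K) (r := r) (c := c) h2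
  have hMM := idemM_mul_idemM (K := K) (r := r) hc h2
  set P := idemP (K := K) r c
  set M := idemM (K := K) r c
  have e1 : M * r (h * g) * M = M * r h * M * (M * r g * M) + M * r h * P * r g * M := by
    rw [map_mul]
    calc M * (r h * r g) * M = M * r h * (P + M) * r g * M := by rw [hsum]; noncomm_ring
      _ = M * r h * (M * M) * r g * M + M * r h * P * r g * M := by rw [hMM]; noncomm_ring
      _ = _ := by noncomm_ring
  rw [idemM_mul hrel hc hεc h2 g, idemM_mul hrel hc hεc h2 h, idemM_mul hrel hc hεc h2 (h * g),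
    smul_mul_smul_comm, hMM] at e1
  rw [sub_smul]
  exact eq_sub_of_add_eq' e1.symm

variable (hP : idemP (K := K) r c ≠ 0) (hM : idemM (K := K) r c ≠ 0)

include hrel hc hεc h2 hP hM in
/-- Symmetry: the two off-diagonal products agree. -/
theorem xFun_eq (g h : G) :
    xFun t c g h = dFun t c (h * g) - dFun t c h * dFun t c g := by
  have hPP := idemP_mul_idemP (K := K) (r := r) hc h2
  have hMM := idemM_mul_idemM (K := K) (r := r) hc h2
  have huv := idemP_mul_idemM_mul hrel hc hεc h2 g h
  have hvu := idemM_mul_idemP_mul hrel hc hεc h2 h g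
  set P := idemP (K := K) r c
  set M := idemM (K := K) r c
  set x := xFun t c g h
  set y := dFun t c (h * g) - dFun t c h * dFun t c g
  set u := P * r g * M with hu
  set v := M * r h * P with hv
  have huv' : u * v = x • P := by
    rw [← huv, hu, hv]
    calc P * r g * M * (M * r h * P) = P * r g * (M * M) * r h * P := by noncomm_ring
      _ = _ := by rw [hMM]
  have hvu' : v * u = y • M := by
    rw [← hvu, hu, hv]
    calc M * r h * P * (P * r g * M) = M * r h * (P * P) * r g * M := by noncomm_ring
      _ = _ := by rw [hPP]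
  have hPu : P * u = u := by
    rw [hu]
    calc P * (P * r g * M) = (P * P) * r g * M := by noncomm_ring
      _ = _ := by rw [hPP]
  have huM : u * M = u := by
    rw [hu]
    calc P * r g * M * M = P * r g * (M * M) := by noncomm_ring
      _ = _ := by rw [hMM]
  have hMv : M * v = v := by
    rw [hv]
    calc M * (M * r h * P) = (M * M) * r h * P := by noncomm_ring
      _ = _ := by rw [hMM]
  have hvP : v * P = v := by
    rw [hv]
    calc M * r h * P * P = M * r h * (P * P) := by noncomm_ring
      _ = _ := by rw [hPP]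
  have h1 : (x - y) • u = 0 := by
    have e1 : u * v * u = x • u := by rw [huv', smul_mul_assoc, hPu]
    have e2 : u * v * u = y • u := by rw [mul_assoc, hvu', mul_smul_comm, huM]
    rw [sub_smul, ← e1, ← e2, sub_self]
  have h3 : (x - y) • v = 0 := by
    have e1 : v * u * v = y • v := by rw [hvu', smul_mul_assoc, hMv]
    have e2 : v * u * v = x • v := by rw [mul_assoc, huv', mul_smul_comm, hvP]
    rw [sub_smul, ← e1, ← e2, sub_self]
  by_contra hne
  have hxy : x - y ≠ 0 := sub_ne_zero.mpr hne
  have hu0 : u = 0 := (smul_eq_zero.mp h1).resolve_left hxy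
  have hv0 : v = 0 := (smul_eq_zero.mp h3).resolve_left hxy
  have hx0 : x = 0 := by
    have : x • P = 0 := by rw [← huv', hu0, zero_mul]
    exact (smul_eq_zero.mp this).resolve_right hP
  have hy0 : y = 0 := by
    have : y • M = 0 := by rw [← hvu', hu0, mul_zero]
    exact (smul_eq_zero.mp this).resolve_right hM
  exact hne (hx0.trans hy0.symm)

include hrel hc hεc h2 hP hM in
/-- (R2) -/
theorem dFun_mul (g h : G) : dFun t c (g * h) = dFun t c g * dFun t c h + xFun t c h g := by
  rw [xFun_eq hrel hc hεc h2 hP hM h g]; ring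

omit hrel hc hεc h2 hP hM in
/-- (R1) -/
theorem aFun_mul (g h : G) : aFun t c (g * h) = aFun t c g * aFun t c h + xFun t c g h := by
  unfold xFun; ring

include hrel hc hεc h2 hP hM in
/-- (R3): the off-diagonal products have rank one. -/
theorem xFun_mul_xFun (g h₁ g₁ h : G) :
    xFun t c g h₁ * xFun t c g₁ h = xFun t c g₁ h₁ * xFun t c g h := by
  have hPP := idemP_mul_idemP (K := K) (r := r) hc h2
  have e1 := idemP_mul_idemM_mul hrel hc hεc h2 g h₁
  have e2 := idemP_mul_idemM_mul hrel hc hεc h2 g₁ h
  have e3 := idemP_mul_idemM_mul hrel hc hεc h2 g h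
  have e4 := idemM_mul_idemP_mul hrel hc hεc h2 h₁ g₁
  rw [← xFun_eq hrel hc hεc h2 hP hM g₁ h₁] at e4
  set P := idemP (K := K) r c
  set M := idemM (K := K) r c
  have w : P * r g * M * r h₁ * P * (P * r g₁ * M * r h * P)
      = P * r g * (M * r h₁ * P * r g₁ * M) * r h * P := by
    calc P * r g * M * r h₁ * P * (P * r g₁ * M * r h * P)
        = P * r g * M * r h₁ * (P * P) * r g₁ * M * r h * P := by noncomm_ring
      _ = P * r g * M * r h₁ * P * r g₁ * M * r h * P := by rw [hPP]
      _ = _ := by noncomm_ring
  rw [e1, e2, e4, smul_mul_smul_comm, hPP, mul_smul_comm, smul_mul_assoc, smul_mul_assoc, e3,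
    smul_smul] at w
  have := sub_eq_zero.mpr w
  rw [← sub_smul] at this
  exact sub_eq_zero.mp ((smul_eq_zero.mp this).resolve_right hP)

include hrel hc hεc h2 hP in
/-- (R4) -/
theorem xFun_mul_left (g k h : G) :
    xFun t c (g * k) h = aFun t c g * xFun t c k h + dFun t c k * xFun t c g h := by
  have hsum := idemP_add_idemM (K := K) (r := r) (c := c) h2
  have hPP := idemP_mul_idemP (K := K) (r := r) hc h2
  have e0 := idemP_mul_idemM_mul hrel hc hεc h2 (g * k) h
  have e1 := idemP_mul_idemM_mul hrel hc hεc h2 k h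
  have e2 := idemP_mul_idemM_mul hrel hc hεc h2 g h
  have e3 := idemP_mul hrel hc hεc h2 g
  have e4 := idemM_mul hrel hc hεc h2 k
  set P := idemP (K := K) r c
  set M := idemM (K := K) r c
  have w : P * r (g * k) * M * r h * P
      = P * r g * P * (P * r k * M * r h * P) + P * r g * (M * r k * M) * r h * P := by
    rw [map_mul]
    calc P * (r g * r k) * M * r h * P = P * r g * (P + M) * r k * M * r h * P := by
          rw [hsum]; noncomm_ring
      _ = P * r g * (P * P) * r k * M * r h * P + P * r g * M * r k * M * r h * P := by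
          rw [hPP]; noncomm_ring
      _ = _ := by noncomm_ring
  rw [e0, e3, e1, e4, smul_mul_smul_comm, hPP, mul_smul_comm, smul_mul_assoc, smul_mul_assoc, e2,
    smul_smul, ← add_smul] at w
  have := sub_eq_zero.mpr w
  rw [← sub_smul] at this
  exact sub_eq_zero.mp ((smul_eq_zero.mp this).resolve_right hP)

include hrel hc hεc h2 hP in
/-- (R5) -/
theorem xFun_mul_right (g₁ g k : G) :
    xFun t c g₁ (g * k) = xFun t c g₁ g * aFun t c k + dFun t c g * xFun t c g₁ k := by
  have hsum := idemP_add_idemM (K := K) (r := r) (c := c) h2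
  have hPP := idemP_mul_idemP (K := K) (r := r) hc h2
  have e0 := idemP_mul_idemM_mul hrel hc hεc h2 g₁ (g * k)
  have e1 := idemP_mul_idemM_mul hrel hc hεc h2 g₁ g
  have e2 := idemP_mul_idemM_mul hrel hc hεc h2 g₁ k
  have e3 := idemP_mul hrel hc hεc h2 k
  have e4 := idemM_mul hrel hc hεc h2 g
  set P := idemP (K := K) r c
  set M := idemM (K := K) r c
  have w : P * r g₁ * M * r (g * k) * P
      = P * r g₁ * M * r g * P * (P * r k * P) + P * r g₁ * (M * r g * M) * r k * P := by
    rw [map_mul]
    calc P * r g₁ * M * (r g * r k) * P = P * r g₁ * M * r g * (P + M) * r k * P := by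
          rw [hsum]; noncomm_ring
      _ = P * r g₁ * M * r g * (P * P) * r k * P + P * r g₁ * M * r g * M * r k * P := by
          rw [hPP]; noncomm_ring
      _ = _ := by noncomm_ring
  rw [e0, e3, e1, e4, smul_mul_smul_comm, hPP, mul_smul_comm, smul_mul_assoc, smul_mul_assoc, e2,
    smul_smul, ← add_smul] at w
  have := sub_eq_zero.mpr w
  rw [← sub_smul] at this
  exact sub_eq_zero.mp ((smul_eq_zero.mp this).resolve_right hP)

include hrel hc hεc h2 hP in
/-- (R6): the determinant. -/
theorem aFun_mul_dFun_sub (g : G) :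
    aFun t c g * dFun t c g - xFun t c g g = (ε g : K) := by
  have hPP := idemP_mul_idemP (K := K) (r := r) hc h2
  have hsq : r g * r g = t g • r g - (ε g : K) • (1 : E) := by
    have h1 := congrArg (fun z => r g * z) (star_eq hrel g)
    simp only [mul_smul_comm, mul_sub, mul_one] at h1
    rw [← map_mul, mul_inv_cancel, map_one] at h1
    linear_combination (norm := module) h1
  have e0 := idemP_mul hrel hc hεc h2 (g * g)
  have e1 := idemP_mul hrel hc hεc h2 g
  set P := idemP (K := K) r c
  have w : P * r (g * g) * P = t g • (P * r g * P) - (ε g : K) • (P * P) := by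
    rw [map_mul, mul_assoc P, hsq]
    simp only [mul_sub, sub_mul, mul_smul_comm, smul_mul_assoc, one_mul, mul_assoc]
  rw [e0, e1, hPP, smul_smul, ← sub_smul] at w
  have := sub_eq_zero.mpr w
  rw [← sub_smul] at this
  have h3 := sub_eq_zero.mp ((smul_eq_zero.mp this).resolve_right hP)
  have h4 := aFun_add_dFun t c h2 g
  unfold xFun
  linear_combination (aFun t c g) * h4 - h3

include hrel hP in
theorem t_one : t 1 = 2 := by
  have hE : (1 : E) ≠ 0 := by
    intro h
    apply hP
    rw [← mul_one (idemP (K := K) r c), h, mul_zero]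
  have h := hrel 1
  rw [inv_one, map_one, map_one, Units.val_one, one_smul] at h
  have h' : (t 1 - 2) • (1 : E) = 0 := by
    rw [sub_smul, ← h]; module
  exact sub_eq_zero.mp ((smul_eq_zero.mp h').resolve_right hE)

include hrel hc hεc hP in
theorem t_c : t c = 0 := by
  have hE : (1 : E) ≠ 0 := by
    intro h
    apply hP
    rw [← mul_one (idemP (K := K) r c), h, mul_zero]
  have h := hrel c
  have hci : c⁻¹ = c := inv_eq_of_mul_eq_one_right hc
  rw [hci, hεc, neg_smul, one_smul, add_neg_cancel] at h
  exact ((smul_eq_zero.mp h.symm).resolve_right hE)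

include hrel hc hεc h2 hP in
theorem aFun_one : aFun t c 1 = 1 := by
  unfold aFun
  rw [mul_one, t_one hrel hP, t_c hrel hc hεc hP]
  field_simp
  ring

include hrel hc hεc h2 hP in
theorem dFun_one : dFun t c 1 = 1 := by
  unfold dFun
  rw [mul_one, t_one hrel hP, t_c hrel hc hεc hP]
  field_simp
  ring

end OperatorCalculus

end Fermat.Agent.S30.H90
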