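import Fermat.Agent.S30.H90.Translates

set_option autoImplicit false

/-!
# Denominators and a stable lattice

`𝒪` a principal ideal domain with fraction field `K`.  A matrix representation
`M : G →* Matrix (Fin 2) (Fin 2) K` whose coefficients lie in the span of the two-sided
translates of an `𝒪`-valued central function has bounded denominators; the `𝒪`-span of the
columns of the `M g` is a stable lattice, free of rank `2`.
-/

namespace Fermat.Agent.S30.H90

open Module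

section Denominators

variable {𝒪 K : Type*} [CommRing 𝒪] [IsDomain 𝒪] [Field K] [Algebra 𝒪 K] [IsFractionRing 𝒪 K]
variable {G : Type*} [Group G]

theorem exists_denominator (t₀ : G → 𝒪) (h2 : ∀ g h, t₀ (g * h) = t₀ (h * g))
    (f : G → K) (hf : f ∈ biSpan (fun g => algebraMap 𝒪 K (t₀ g))) :
    ∃ (D : 𝒪) (f₀ : G → 𝒪), D ≠ 0 ∧
      (∀ g, algebraMap 𝒪 K D * f g = algebraMap 𝒪 K (f₀ g)) ∧
      ∀ (I : Ideal 𝒪) (σ : G), (∀ y, t₀ (σ * y) - t₀ y ∈ I) → ∀ g, f₀ (σ * g) - f₀ g ∈ I := by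
  induction hf using Submodule.span_induction with
  | mem f hf =>
    obtain ⟨⟨u, v⟩, rfl⟩ := hf
    refine ⟨1, fun g => t₀ (u * g * v), one_ne_zero, fun g => by simp, fun I σ hσ g => ?_⟩
    have e1 : t₀ (u * (σ * g) * v) = t₀ (σ * (g * v * u)) := by
      rw [mul_assoc u, h2 u]; simp only [mul_assoc]
    have e2 : t₀ (u * g * v) = t₀ (g * v * u) := by
      rw [mul_assoc u, h2 u]
    show t₀ (u * (σ * g) * v) - t₀ (u * g * v) ∈ I
    rw [e1, e2]
    exact hσ _
  | zero =>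
    exact ⟨1, fun _ => 0, one_ne_zero, fun g => by simp, fun I σ _ g => by simp⟩
  | add f₁ f₂ _ _ h₁ h₂ =>
    obtain ⟨D₁, g₁, hD₁, e₁, c₁⟩ := h₁
    obtain ⟨D₂, g₂, hD₂, e₂, c₂⟩ := h₂
    refine ⟨D₁ * D₂, fun g => D₂ * g₁ g + D₁ * g₂ g, mul_ne_zero hD₁ hD₂, fun g => ?_,
      fun I σ hσ g => ?_⟩
    · simp only [Pi.add_apply, map_mul, map_add]
      linear_combination (algebraMap 𝒪 K D₂) * e₁ g + (algebraMap 𝒪 K D₁) * e₂ g
    · have : D₂ * g₁ (σ * g) + D₁ * g₂ (σ * g) - (D₂ * g₁ g + D₁ * g₂ g)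
          = D₂ * (g₁ (σ * g) - g₁ g) + D₁ * (g₂ (σ * g) - g₂ g) := by ring
      rw [this]
      exact I.add_mem (I.mul_mem_left _ (c₁ I σ hσ g)) (I.mul_mem_left _ (c₂ I σ hσ g))
  | smul κ f _ h =>
    obtain ⟨D₁, g₁, hD₁, e₁, c₁⟩ := h
    obtain ⟨n, d, hd, rfl⟩ := IsFractionRing.div_surjective (A := 𝒪) κ
    have hd0 : d ≠ 0 := nonZeroDivisors.ne_zero hd
    have hdK : algebraMap 𝒪 K d ≠ 0 := by
      rw [Ne, map_eq_zero_iff _ (IsFractionRing.injective 𝒪 K)]; exact hd0
    refine ⟨d * D₁, fun g => n * g₁ g, mul_ne_zero hd0 hD₁, fun g => ?_, fun I σ hσ g => ?_⟩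
    · simp only [Pi.smul_apply, smul_eq_mul, map_mul]
      rw [← e₁ g]
      field_simp
    · have : n * g₁ (σ * g) - n * g₁ g = n * (g₁ (σ * g) - g₁ g) := by ring
      rw [this]
      exact I.mul_mem_left _ (c₁ I σ hσ g)

theorem exists_common_denominator (t₀ : G → 𝒪) (h2 : ∀ g h, t₀ (g * h) = t₀ (h * g))
    (M : G → Matrix (Fin 2) (Fin 2) K)
    (hM : ∀ i j, (fun g => M g i j) ∈ biSpan (fun g => algebraMap 𝒪 K (t₀ g))) :
    ∃ (D : 𝒪) (N₀ : G → Matrix (Fin 2) (Fin 2) 𝒪), D ≠ 0 ∧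
      (∀ g i j, algebraMap 𝒪 K D * M g i j = algebraMap 𝒪 K (N₀ g i j)) ∧
      ∀ (I : Ideal 𝒪) (σ : G), (∀ y, t₀ (σ * y) - t₀ y ∈ I) →
        ∀ g i j, N₀ (σ * g) i j - N₀ g i j ∈ I := by
  choose D f₀ hD he hc using fun i j => exists_denominator t₀ h2 _ (hM i j)
  classical
  let E : Fin 2 → Fin 2 → 𝒪 := fun i j =>
    ∏ p ∈ (Finset.univ : Finset (Fin 2 × Fin 2)).erase (i, j), D p.1 p.2
  have hE : ∀ i j, D i j * E i j = ∏ p : Fin 2 × Fin 2, D p.1 p.2 := fun i j =>
    Finset.mul_prod_erase Finset.univ (fun p : Fin 2 × Fin 2 => D p.1 p.2) (Finset.mem_univ (i, j))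
  refine ⟨∏ p : Fin 2 × Fin 2, D p.1 p.2, fun g => Matrix.of fun i j => E i j * f₀ i j g,
    Finset.prod_ne_zero_iff.mpr fun p _ => hD p.1 p.2, fun g i j => ?_, fun I σ hσ g i j => ?_⟩
  · show algebraMap 𝒪 K (∏ p : Fin 2 × Fin 2, D p.1 p.2) * M g i j
      = algebraMap 𝒪 K (E i j * f₀ i j g)
    rw [← hE i j, map_mul, map_mul, ← he i j g]
    ring
  · show E i j * f₀ i j (σ * g) - E i j * f₀ i j g ∈ I
    have : E i j * f₀ i j (σ * g) - E i j * f₀ i j g = E i j * (f₀ i j (σ * g) - f₀ i j g) := by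
      ring
    rw [this]
    exact I.mul_mem_left _ (hc i j I σ hσ g)

end Denominators

section ColLattice

variable {𝒪 K : Type*} [CommRing 𝒪] [Field K] [Algebra 𝒪 K]
variable {G : Type*} [Group G]

/-- The `𝒪`-span of the columns of the matrices `M g`. -/
def colLattice (𝒪 : Type*) [CommRing 𝒪] {K : Type*} [Field K] [Algebra 𝒪 K] {G : Type*} [Group G]
    (M : G →* Matrix (Fin 2) (Fin 2) K) : Submodule 𝒪 (Fin 2 → K) :=
  Submodule.span 𝒪 (Set.range fun gi : G × Fin 2 => (M gi.1).col gi.2)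

theorem mulVec_col (M : G →* Matrix (Fin 2) (Fin 2) K) (h g : G) (i : Fin 2) :
    (M h).mulVec ((M g).col i) = (M (h * g)).col i := by
  rw [map_mul]
  funext k
  simp [Matrix.mulVec, dotProduct, Matrix.mul_apply, Matrix.col]

theorem mulVec_mem_colLattice (M : G →* Matrix (Fin 2) (Fin 2) K) (h : G) :
    ∀ v ∈ colLattice 𝒪 M, (M h).mulVec v ∈ colLattice 𝒪 M := by
  intro v hv
  induction hv using Submodule.span_induction with
  | mem v hv =>
    obtain ⟨⟨g, i⟩, rfl⟩ := hv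
    rw [mulVec_col]
    exact Submodule.subset_span ⟨(h * g, i), rfl⟩
  | zero => rw [Matrix.mulVec_zero]; exact zero_mem _
  | add v w _ _ h₁ h₂ => rw [Matrix.mulVec_add]; exact add_mem h₁ h₂
  | smul a v _ h₁ => rw [Matrix.mulVec_smul]; exact Submodule.smul_mem _ _ h₁

/-- The action of `G` on the column lattice. -/
def colRep (𝒪 : Type*) [CommRing 𝒪] {K : Type*} [Field K] [Algebra 𝒪 K] {G : Type*} [Group G]
    (M : G →* Matrix (Fin 2) (Fin 2) K) : G →* Module.End 𝒪 (colLattice 𝒪 M) where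
  toFun h := ((Matrix.mulVecLin (M h)).restrictScalars 𝒪).restrict (mulVec_mem_colLattice M h)
  map_one' := by
    apply LinearMap.ext
    rintro ⟨v, hv⟩
    apply Subtype.ext
    show (M 1).mulVec v = v
    rw [map_one, Matrix.one_mulVec]
  map_mul' g h := by
    apply LinearMap.ext
    rintro ⟨v, hv⟩
    apply Subtype.ext
    show (M (g * h)).mulVec v = (M g).mulVec ((M h).mulVec v)
    rw [map_mul, Matrix.mulVec_mulVec]

@[simp] theorem colRep_apply (M : G →* Matrix (Fin 2) (Fin 2) K) (h : G)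
    (v : colLattice 𝒪 M) :
    ((colRep 𝒪 M h v : colLattice 𝒪 M) : Fin 2 → K) = (M h).mulVec (v : Fin 2 → K) := rfl

theorem single_mem_colLattice (M : G →* Matrix (Fin 2) (Fin 2) K) (i : Fin 2) :
    (Pi.single i 1 : Fin 2 → K) ∈ colLattice 𝒪 M := by
  refine Submodule.subset_span ⟨(1, i), ?_⟩
  funext k
  simp [Matrix.col, Matrix.one_apply, Pi.single_apply, eq_comm]

end ColLattice

section LatticeMain

variable {𝒪 K : Type*} [CommRing 𝒪] [IsDomain 𝒪] [IsPrincipalIdealRing 𝒪] [Field K]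
  [Algebra 𝒪 K] [IsFractionRing 𝒪 K]
variable {G : Type*} [Group G]
variable (M : G →* Matrix (Fin 2) (Fin 2) K) (D : 𝒪) (hD : D ≠ 0)
  (N₀ : G → Matrix (Fin 2) (Fin 2) 𝒪)
  (hN : ∀ g i j, algebraMap 𝒪 K D * M g i j = algebraMap 𝒪 K (N₀ g i j))

omit [IsDomain 𝒪] [IsPrincipalIdealRing 𝒪] in
include hD hN in
theorem colLattice_le :
    colLattice 𝒪 M ≤ Submodule.span 𝒪
      (Set.range fun k : Fin 2 => (algebraMap 𝒪 K D)⁻¹ • (Pi.single k 1 : Fin 2 → K)) := by
  have hDK : algebraMap 𝒪 K D ≠ 0 := by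
    rw [Ne, map_eq_zero_iff _ (IsFractionRing.injective 𝒪 K)]; exact hD
  refine Submodule.span_le.mpr ?_
  rintro _ ⟨⟨g, i⟩, rfl⟩
  have h : (M g).col i
      = ∑ k : Fin 2, N₀ g k i • ((algebraMap 𝒪 K D)⁻¹ • (Pi.single k 1 : Fin 2 → K)) := by
    funext k'
    rw [Finset.sum_apply, Finset.sum_eq_single k']
    · simp only [Pi.smul_apply, Pi.single_eq_same, smul_eq_mul, mul_one]
      rw [Algebra.smul_def, ← hN g k' i]
      show M g k' i = _
      field_simp
    · intro b _ hb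
      simp only [Pi.smul_apply, Pi.single_eq_of_ne hb.symm, smul_zero]
    · intro h; exact absurd (Finset.mem_univ k') h
  show (M g).col i ∈ _
  rw [h]
  exact Submodule.sum_mem _ fun k _ => Submodule.smul_mem _ _ (Submodule.subset_span ⟨k, rfl⟩)

include hD hN in
theorem colLattice_finite : Module.Finite 𝒪 (colLattice 𝒪 M) := by
  have hfg : (Submodule.span 𝒪
      (Set.range fun k : Fin 2 => (algebraMap 𝒪 K D)⁻¹ • (Pi.single k 1 : Fin 2 → K))).FG :=
    Submodule.fg_span (Set.finite_range _)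
  have := isNoetherian_of_fg_of_noetherian _ hfg
  have : IsNoetherian 𝒪 (colLattice 𝒪 M) := isNoetherian_of_le (colLattice_le M D hD N₀ hN)
  infer_instance

theorem trace_toLin'_eq (A : Matrix (Fin 2) (Fin 2) K) :
    LinearMap.trace K (Fin 2 → K) (Matrix.toLin' A) = A.trace := by
  rw [LinearMap.trace_eq_matrix_trace K (Pi.basisFun K (Fin 2)), LinearMap.toMatrix_eq_toMatrix',
    LinearMap.toMatrix'_toLin']

theorem colLattice_facts [Module.Finite 𝒪 (colLattice 𝒪 M)] :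
    Module.finrank 𝒪 (colLattice 𝒪 M) = 2 ∧
      ∀ g, algebraMap 𝒪 K (LinearMap.trace 𝒪 (colLattice 𝒪 M) (colRep 𝒪 M g)) = (M g).trace ∧
        algebraMap 𝒪 K (LinearMap.det (colRep 𝒪 M g)) = (M g).det := by
  classical
  let ι := Module.Free.ChooseBasisIndex 𝒪 (colLattice 𝒪 M)
  let b : Basis ι 𝒪 (colLattice 𝒪 M) := Module.Free.chooseBasis 𝒪 (colLattice 𝒪 M)
  let v : ι → (Fin 2 → K) := fun i => ((b i : colLattice 𝒪 M) : Fin 2 → K)
  have hli𝒪 : LinearIndependent 𝒪 v :=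
    b.linearIndependent.map' (colLattice 𝒪 M).subtype (Submodule.ker_subtype _)
  have hliK : LinearIndependent K v := (LinearIndependent.iff_fractionRing 𝒪 K).mp hli𝒪
  have hle : Fintype.card ι ≤ 2 := by
    have := hliK.fintype_card_le_finrank
    rwa [Module.finrank_fin_fun] at this
  have hspan𝒪 : Submodule.span 𝒪 (Set.range v) = colLattice 𝒪 M := by
    have := congrArg (Submodule.map (colLattice 𝒪 M).subtype) b.span_eq
    rw [Submodule.map_span, Submodule.map_subtype_top, ← Set.range_comp] at this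
    exact this
  have hspanK : Submodule.span K (Set.range v) = ⊤ := by
    rw [eq_top_iff, ← (Pi.basisFun K (Fin 2)).span_eq, Submodule.span_le]
    rintro _ ⟨i, rfl⟩
    have h1 : (Pi.single i 1 : Fin 2 → K) ∈ Submodule.span 𝒪 (Set.range v) := by
      rw [hspan𝒪]; exact single_mem_colLattice M i
    rw [Pi.basisFun_apply]
    exact Submodule.span_le_restrictScalars 𝒪 K _ h1
  have hge : 2 ≤ Fintype.card ι := by
    have := finrank_range_le_card (R := K) v
    rwa [Set.finrank, hspanK, finrank_top, Module.finrank_fin_fun] at this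
  have hcard : Fintype.card ι = 2 := le_antisymm hle hge
  have : Nonempty ι := Fintype.card_pos_iff.mp (by omega)
  let bK : Basis ι K (Fin 2 → K) :=
    basisOfLinearIndependentOfCardEqFinrank hliK (by rw [hcard, Module.finrank_fin_fun])
  have hbK : ∀ i, bK i = v i := fun i => by
    simp only [bK, coe_basisOfLinearIndependentOfCardEqFinrank]
  refine ⟨by rw [Module.finrank_eq_card_basis b, hcard], fun g => ?_⟩
  have key : LinearMap.toMatrix bK bK (Matrix.toLin' (M g))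
      = (LinearMap.toMatrix b b (colRep 𝒪 M g)).map (algebraMap 𝒪 K) := by
    ext i j
    rw [LinearMap.toMatrix_apply, Matrix.map_apply, LinearMap.toMatrix_apply]
    have h1 : (colRep 𝒪 M g (b j) : colLattice 𝒪 M)
        = ∑ k, b.repr (colRep 𝒪 M g (b j)) k • b k := (b.sum_repr _).symm
    have h2 : Matrix.toLin' (M g) (bK j)
        = ∑ k, algebraMap 𝒪 K (b.repr (colRep 𝒪 M g (b j)) k) • bK k := by
      have h3 := congrArg (fun w : colLattice 𝒪 M => (w : Fin 2 → K)) h1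
      simp only [colRep_apply, Submodule.coe_sum, Submodule.coe_smul] at h3
      rw [hbK, Matrix.toLin'_apply, h3]
      refine Finset.sum_congr rfl fun k _ => ?_
      rw [hbK, algebraMap_smul]
    rw [h2, Basis.repr_sum_self]
  constructor
  · rw [LinearMap.trace_eq_matrix_trace 𝒪 b, AddMonoidHom.map_trace (algebraMap 𝒪 K), ← key,
      ← LinearMap.trace_eq_matrix_trace K bK, trace_toLin'_eq]
  · rw [← LinearMap.det_toMatrix b, RingHom.map_det, RingHom.mapMatrix_apply, ← key,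
      LinearMap.det_toMatrix bK, LinearMap.det_toLin']

omit [IsDomain 𝒪] [IsPrincipalIdealRing 𝒪] in
include hD hN in
theorem colRep_sub_mem (J : Ideal 𝒪) (σ : G)
    (hσ : ∀ g i j, ∃ ι ∈ J, N₀ (σ * g) i j - N₀ g i j = D * ι) :
    ∀ v : colLattice 𝒪 M, colRep 𝒪 M σ v - v ∈ J • (⊤ : Submodule 𝒪 (colLattice 𝒪 M)) := by
  have hDK : algebraMap 𝒪 K D ≠ 0 := by
    rw [Ne, map_eq_zero_iff _ (IsFractionRing.injective 𝒪 K)]; exact hD
  have key : ∀ v, v ∈ colLattice 𝒪 M → ∀ hv' : v ∈ colLattice 𝒪 M,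
      colRep 𝒪 M σ ⟨v, hv'⟩ - ⟨v, hv'⟩ ∈ J • (⊤ : Submodule 𝒪 (colLattice 𝒪 M)) := by
    intro v hv
    induction hv using Submodule.span_induction with
    | mem v hv =>
      intro hv'
      obtain ⟨⟨g, i⟩, rfl⟩ := hv
      choose ι hιJ hι using fun k => hσ g k i
      have e : colRep 𝒪 M σ ⟨(M g).col i, hv'⟩ - ⟨(M g).col i, hv'⟩
          = ∑ k : Fin 2, ι k • (⟨Pi.single k 1, single_mem_colLattice M k⟩ : colLattice 𝒪 M) := by
        apply Subtype.ext
        rw [Submodule.coe_sub, colRep_apply, Submodule.coe_sum]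
        simp only [Submodule.coe_smul, mulVec_col]
        funext k'
        rw [Finset.sum_apply, Finset.sum_eq_single k']
        · simp only [Pi.smul_apply, Pi.sub_apply, Pi.single_eq_same]
          rw [Algebra.smul_def, mul_one]
          show M (σ * g) k' i - M g k' i = _
          have h1 : algebraMap 𝒪 K D * (M (σ * g) k' i - M g k' i)
              = algebraMap 𝒪 K D * algebraMap 𝒪 K (ι k') := by
            rw [mul_sub, hN, hN, ← map_sub, hι k', map_mul]
          exact mul_left_cancel₀ hDK h1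
        · intro b _ hb
          simp only [Pi.smul_apply, Pi.single_eq_of_ne hb.symm, smul_zero]
        · intro h; exact absurd (Finset.mem_univ k') h
      show colRep 𝒪 M σ ⟨(M g).col i, hv'⟩ - ⟨(M g).col i, hv'⟩ ∈ _
      rw [e]
      exact Submodule.sum_mem _ fun k _ => Submodule.smul_mem_smul (hιJ k) Submodule.mem_top
    | zero =>
      intro hv'
      have : (⟨0, hv'⟩ : colLattice 𝒪 M) = 0 := rfl
      rw [this, map_zero, sub_zero]
      exact zero_mem _
    | add v w hv hw h₁ h₂ =>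
      intro hv'
      have hv1 : v ∈ colLattice 𝒪 M := hv
      have hw1 : w ∈ colLattice 𝒪 M := hw
      have : (⟨v + w, hv'⟩ : colLattice 𝒪 M) = ⟨v, hv1⟩ + ⟨w, hw1⟩ := rfl
      rw [this, map_add, add_sub_add_comm]
      exact add_mem (h₁ hv1) (h₂ hw1)
    | smul a v hv h₁ =>
      intro hv'
      have hv1 : v ∈ colLattice 𝒪 M := hv
      have : (⟨a • v, hv'⟩ : colLattice 𝒪 M) = a • ⟨v, hv1⟩ := rfl
      rw [this, map_smul]
      have e : a • colRep 𝒪 M σ ⟨v, hv1⟩ - a • (⟨v, hv1⟩ : colLattice 𝒪 M)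
          = a • (colRep 𝒪 M σ ⟨v, hv1⟩ - ⟨v, hv1⟩) := (smul_sub a _ _).symm
      rw [e]
      exact Submodule.smul_mem _ _ (h₁ hv1)
  exact fun v => key v.1 v.2 v.2

end LatticeMain

end Fermat.Agent.S30.H90
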