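import Mathlib

set_option autoImplicit false

/-!
# From the four coefficient functions to a `2 × 2` matrix representation
-/

namespace Fermat.Agent.S30.H90

section Matrix2

variable {K : Type*} [Field K] {G : Type*} [Group G]

/-- Wiles' construction: coefficient functions `a, d` and a rank-one off-diagonal product `x`
give a homomorphism to `2 × 2` matrices. -/
theorem exists_matrixHom (a d : G → K) (x : G → G → K)
    (ha : ∀ g h, a (g * h) = a g * a h + x g h)
    (hd : ∀ g h, d (g * h) = d g * d h + x h g)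
    (hx : ∀ g h₁ g₁ h, x g h₁ * x g₁ h = x g₁ h₁ * x g h)
    (hxl : ∀ g k h, x (g * k) h = a g * x k h + d k * x g h)
    (hxr : ∀ g₁ g k, x g₁ (g * k) = x g₁ g * a k + d g * x g₁ k)
    (ha1 : a 1 = 1) (hd1 : d 1 = 1) :
    ∃ (M : G →* Matrix (Fin 2) (Fin 2) K) (g₁ h₁ : G) (κ κ' : K),
      (∀ g, M g 0 0 = a g) ∧ (∀ g, M g 1 1 = d g) ∧ (∀ g, M g 0 1 = κ * x g h₁) ∧
      (∀ g, M g 1 0 = κ' * x g₁ g) ∧ ∀ g, (M g).det = a g * d g - x g g := by
  have hx1l : ∀ h, x 1 h = 0 := by
    intro h
    have := ha 1 h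
    rw [one_mul, ha1, one_mul] at this
    linear_combination -this
  have hx1r : ∀ g, x g 1 = 0 := by
    intro g
    have := ha g 1
    rw [mul_one, ha1, mul_one] at this
    linear_combination -this
  by_cases hex : ∃ g₁ h₁, x g₁ h₁ ≠ 0
  · obtain ⟨g₁, h₁, hne⟩ := hex
    refine ⟨{ toFun := fun g => !![a g, x g h₁ / x g₁ h₁; x g₁ g, d g]
              map_one' := ?_
              map_mul' := ?_ }, g₁, h₁, (x g₁ h₁)⁻¹, 1, ?_, ?_, ?_, ?_, ?_⟩
    · rw [ha1, hd1, hx1l, hx1r, zero_div, Matrix.one_fin_two]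
    · intro g k
      rw [Matrix.mul_fin_two]
      have e1 : a (g * k) = a g * a k + x g h₁ / x g₁ h₁ * x g₁ k := by
        rw [ha g k]
        have := hx g h₁ g₁ k
        field_simp
        linear_combination -this
      have e2 : x (g * k) h₁ / x g₁ h₁ = a g * (x k h₁ / x g₁ h₁) + x g h₁ / x g₁ h₁ * d k := by
        rw [hxl g k h₁]
        field_simp
      have e3 : x g₁ (g * k) = x g₁ g * a k + d g * x g₁ k := hxr g₁ g k
      have e4 : d (g * k) = x g₁ g * (x k h₁ / x g₁ h₁) + d g * d k := by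
        rw [hd g k]
        have := hx k h₁ g₁ g
        field_simp
        linear_combination -this
      rw [e1, e2, e3, e4]
    · intro g; rfl
    · intro g; rfl
    · intro g
      show x g h₁ / x g₁ h₁ = (x g₁ h₁)⁻¹ * x g h₁
      rw [div_eq_inv_mul]
    · intro g
      show x g₁ g = 1 * x g₁ g
      rw [one_mul]
    · intro g
      show (!![a g, x g h₁ / x g₁ h₁; x g₁ g, d g] : Matrix (Fin 2) (Fin 2) K).det = _
      rw [Matrix.det_fin_two_of]
      have := hx g h₁ g₁ g
      field_simp
      linear_combination -this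
  · replace hex : ∀ g h, x g h = 0 := fun g h => by
      by_contra hh
      exact hex ⟨g, h, hh⟩
    refine ⟨{ toFun := fun g => !![a g, 0; 0, d g]
              map_one' := ?_
              map_mul' := ?_ }, 1, 1, 0, 0, ?_, ?_, ?_, ?_, ?_⟩
    · rw [ha1, hd1, Matrix.one_fin_two]
    · intro g k
      rw [Matrix.mul_fin_two, ha g k, hd g k, hex, hex]
      simp
    · intro g; rfl
    · intro g; rfl
    · intro g
      show (0 : K) = 0 * x g 1
      rw [zero_mul]
    · intro g
      show (0 : K) = 0 * x 1 g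
      rw [zero_mul]
    · intro g
      show (!![a g, 0; 0, d g] : Matrix (Fin 2) (Fin 2) K).det = _
      rw [Matrix.det_fin_two_of, hex]
      ring

end Matrix2

end Fermat.Agent.S30.H90
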