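import Fermat.Agent.S30.H90.Calc
import Fermat.Agent.S30.H90.MatHom

set_option autoImplicit false

/-!
# A two-dimensional representation from a pseudo-trace with an odd involution

`t : G → K` with `t (g h) = t (h g)`, `t (g h) + ε h * t (g h⁻¹) = t g * t h`, `t 1 = 2`,
`t c = 0` for an involution `c` with `ε c = -1`.  The span of the right translates of `t`
carries the operator identity `g + ε g g⁻¹ = t g`; the operator calculus of `Calc.lean` and the
matrix construction of `MatHom.lean` give `M : G →* Matrix (Fin 2) (Fin 2) K` with trace `t`,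
determinant `ε`, and all matrix coefficients in the span of the functions `g ↦ t (u g v)`.
-/

namespace Fermat.Agent.S30.H90

section Translates

variable {K : Type*} [Field K] {G : Type*} [Group G]

/-- Right translation on functions. -/
def rtrans (K : Type*) [Field K] {G : Type*} [Group G] (g : G) : (G → K) →ₗ[K] (G → K) where
  toFun f := fun y => f (y * g)
  map_add' _ _ := rfl
  map_smul' _ _ := rfl

@[simp] theorem rtrans_apply (g : G) (f : G → K) (y : G) : rtrans K g f y = f (y * g) := rfl

/-- The span of the right translates of `t`. -/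
def transSpan (t : G → K) : Submodule K (G → K) :=
  Submodule.span K (Set.range fun k : G => fun y => t (y * k))

theorem rtrans_mem (t : G → K) (g : G) : ∀ f ∈ transSpan t, rtrans K g f ∈ transSpan t := by
  intro f hf
  induction hf using Submodule.span_induction with
  | mem f hf =>
    obtain ⟨k, rfl⟩ := hf
    refine Submodule.subset_span ⟨g * k, ?_⟩
    funext y
    simp [mul_assoc]
  | zero => rw [map_zero]; exact zero_mem _
  | add f₁ f₂ _ _ h₁ h₂ => rw [map_add]; exact add_mem h₁ h₂
  | smul a f _ h => rw [map_smul]; exact Submodule.smul_mem _ _ h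

/-- The action of `G` on the span of translates. -/
def rAct (t : G → K) : G →* Module.End K (transSpan t) where
  toFun g := (rtrans K g).restrict (rtrans_mem t g)
  map_one' := by
    apply LinearMap.ext
    rintro ⟨f, hf⟩
    apply Subtype.ext
    funext y
    simp
  map_mul' g h := by
    apply LinearMap.ext
    rintro ⟨f, hf⟩
    apply Subtype.ext
    funext y
    simp [mul_assoc]

@[simp] theorem rAct_apply (t : G → K) (g : G) (f : transSpan t) (y : G) :
    ((rAct t g f : transSpan t) : G → K) y = (f : G → K) (y * g) := rfl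

variable (t : G → K) (ε : G →* Kˣ) (c : G)

theorem rel_aux (k2 : ∀ g h, t (g * h) = t (h * g))
    (k3 : ∀ g h, t (g * h) + (ε h : K) * t (g * h⁻¹) = t g * t h) :
    ∀ f ∈ transSpan t, ∀ y g, f (y * g) + (ε g : K) * f (y * g⁻¹) = t g * f y := by
  intro f hf
  induction hf using Submodule.span_induction with
  | mem f hf =>
    obtain ⟨k, rfl⟩ := hf
    intro y g
    show t (y * g * k) + (ε g : K) * t (y * g⁻¹ * k) = t g * t (y * k)
    have e1 : t (y * g * k) = t (k * y * g) := by rw [k2 (y * g) k, mul_assoc]
    have e2 : t (y * g⁻¹ * k) = t (k * y * g⁻¹) := by rw [k2 (y * g⁻¹) k, mul_assoc]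
    have e3 : t (y * k) = t (k * y) := k2 y k
    rw [e1, e2, e3, k3 (k * y) g, mul_comm]
  | zero => intro y g; simp
  | add f₁ f₂ _ _ h₁ h₂ =>
    intro y g
    simp only [Pi.add_apply]
    linear_combination h₁ y g + h₂ y g
  | smul a f _ h =>
    intro y g
    simp only [Pi.smul_apply, smul_eq_mul]
    linear_combination a * h y g

theorem rAct_rel (k2 : ∀ g h, t (g * h) = t (h * g))
    (k3 : ∀ g h, t (g * h) + (ε h : K) * t (g * h⁻¹) = t g * t h) (g : G) :
    rAct t g + (ε g : K) • rAct t g⁻¹ = t g • (1 : Module.End K (transSpan t)) := by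
  apply LinearMap.ext
  rintro ⟨f, hf⟩
  apply Subtype.ext
  funext y
  have := rel_aux t ε k2 k3 f hf y g
  simpa using this

theorem idemP_rAct_ne (h2 : (2 : K) ≠ 0) (k1 : t 1 = 2) (k5 : t c = 0) :
    (idemP (K := K) (rAct t) c : Module.End K (transSpan t)) ≠ 0 := by
  intro h
  have hf : (fun y : G => t (y * 1)) ∈ transSpan t := Submodule.subset_span ⟨1, rfl⟩
  have h1 := congrArg (fun T : Module.End K (transSpan t) =>
    ((T ⟨_, hf⟩ : transSpan t) : G → K) 1) h
  simp [idemP, k1, k5] at h1
  exact h2 h1

theorem idemM_rAct_ne (h2 : (2 : K) ≠ 0) (k1 : t 1 = 2) (k5 : t c = 0) :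
    (idemM (K := K) (rAct t) c : Module.End K (transSpan t)) ≠ 0 := by
  intro h
  have hf : (fun y : G => t (y * 1)) ∈ transSpan t := Submodule.subset_span ⟨1, rfl⟩
  have h1 := congrArg (fun T : Module.End K (transSpan t) =>
    ((T ⟨_, hf⟩ : transSpan t) : G → K) 1) h
  simp [idemM, k1, k5] at h1
  exact h2 h1

/-- The span of the two-sided translates `g ↦ t (u g v)`. -/
def biSpan (t : G → K) : Submodule K (G → K) :=
  Submodule.span K (Set.range fun uv : G × G => fun g => t (uv.1 * g * uv.2))

theorem t_mem_biSpan (u v : G) : (fun g => t (u * g * v)) ∈ biSpan t :=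
  Submodule.subset_span ⟨(u, v), rfl⟩

theorem aFun_mem_biSpan (u v : G) : (fun g => aFun t c (u * g * v)) ∈ biSpan t := by
  have h : (fun g => aFun t c (u * g * v))
      = (2⁻¹ : K) • ((fun g => t (u * g * v)) + fun g => t (c * u * g * v)) := by
    funext g
    simp only [aFun, Pi.smul_apply, Pi.add_apply, smul_eq_mul, mul_assoc]
    ring
  rw [h]
  exact Submodule.smul_mem _ _ (add_mem (t_mem_biSpan t u v) (t_mem_biSpan t (c * u) v))

/-- **Wiles' construction.** -/
theorem exists_matrixHom_of_pseudoTrace (h2 : (2 : K) ≠ 0) (hc : c * c = 1)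
    (hεc : (ε c : K) = -1) (k1 : t 1 = 2) (k2 : ∀ g h, t (g * h) = t (h * g))
    (k3 : ∀ g h, t (g * h) + (ε h : K) * t (g * h⁻¹) = t g * t h) (k5 : t c = 0) :
    ∃ M : G →* Matrix (Fin 2) (Fin 2) K,
      (∀ g, (M g).trace = t g) ∧ (∀ g, (M g).det = (ε g : K)) ∧
      ∀ i j, (fun g => M g i j) ∈ biSpan t := by
  have hrel := rAct_rel t ε k2 k3
  have hP := idemP_rAct_ne t c h2 k1 k5
  have hM := idemM_rAct_ne t c h2 k1 k5
  obtain ⟨M, g₁, h₁, κ, κ', h00, h11, h01, h10, hdet⟩ :=
    exists_matrixHom (aFun t c) (dFun t c) (xFun t c) (aFun_mul (t := t) (c := c))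
      (dFun_mul hrel hc hεc h2 hP hM) (xFun_mul_xFun hrel hc hεc h2 hP hM)
      (xFun_mul_left hrel hc hεc h2 hP) (xFun_mul_right hrel hc hεc h2 hP)
      (aFun_one hrel hc hεc h2 hP) (dFun_one hrel hc hεc h2 hP)
  refine ⟨M, ?_, ?_, ?_⟩
  · intro g
    rw [Matrix.trace_fin_two, h00, h11, aFun_add_dFun t c h2]
  · intro g
    rw [hdet, aFun_mul_dFun_sub hrel hc hεc h2 hP]
  · have ha : (fun g => aFun t c g) ∈ biSpan t := by
      have := aFun_mem_biSpan t c 1 1
      simpa using this
    have ht : (fun g => t g) ∈ biSpan t := by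
      have := t_mem_biSpan t 1 1
      simpa using this
    have hd : (fun g => dFun t c g) ∈ biSpan t := by
      have h : (fun g => dFun t c g) = (fun g => t g) - fun g => aFun t c g := by
        funext g
        have := aFun_add_dFun t c h2 g
        simp only [Pi.sub_apply]
        linear_combination this
      rw [h]
      exact sub_mem ht ha
    intro i j
    fin_cases i <;> fin_cases j
    · show (fun g => M g 0 0) ∈ biSpan t
      simp only [h00]; exact ha
    · show (fun g => M g 0 1) ∈ biSpan t
      have h : (fun g => M g 0 1)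
          = κ • ((fun g => aFun t c (1 * g * h₁)) - aFun t c h₁ • fun g => aFun t c g) := by
        funext g
        simp only [h01, xFun, Pi.smul_apply, Pi.sub_apply, smul_eq_mul, one_mul]
        ring
      rw [h]
      exact Submodule.smul_mem _ _ (sub_mem (aFun_mem_biSpan t c 1 h₁) (Submodule.smul_mem _ _ ha))
    · show (fun g => M g 1 0) ∈ biSpan t
      have h : (fun g => M g 1 0)
          = κ' • ((fun g => aFun t c (g₁ * g * 1)) - aFun t c g₁ • fun g => aFun t c g) := by
        funext g
        simp only [h10, xFun, Pi.smul_apply, Pi.sub_apply, smul_eq_mul, mul_one]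
      rw [h]
      exact Submodule.smul_mem _ _ (sub_mem (aFun_mem_biSpan t c g₁ 1) (Submodule.smul_mem _ _ ha))
    · show (fun g => M g 1 1) ∈ biSpan t
      simp only [h11]; exact hd

end Translates

end Fermat.Agent.S30.H90
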